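import Fermat.Agent.BR3.CoverSheetInf.Value
import Fermat.Agent.BR3.CoverSheetMirrorMod
import Fermat.Agent.BR.ModUnitChart
import Fermat.Agent.BR.S0.Inst

/-!
# Program C, nodes SC1/SC6: the per-point hypothesis on `et`, and the sheets of `cZero`

The mirror of `CoverSheetInf/Value.lean` on the component `et = compW 1` of the two-component
model of `X₀(qM)`.  The zeros of `H(j̃) = res₁ T = res₂ T'` on the component `1` are the branches
`z₂ e` of the crossings: the crossings inject by `z₁` AND by `z₂` into the finite set of zeros of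
`H(j̃)`, and `z₁` is onto (`ThickFinal.hzero_modular`), hence so is `z₂`.

* `ord_pos_z₂` : `H(j̃)` vanishes at `z₂ e`;
* `hzero_modular_two` : every zero of `H(j̃)` is `z₂ e` for a crossing `e` (glued to `z₁ e`);
* `exists_value_TB_of_not_crossing_et` : at every finite point `Q'` of `et` which is not a
  crossing, `res₁ T = H(j̃)` has a nonzero finite value;
* `coverSheet_cZero_of_not_crossing` : the sheet `cZero` over every finite non-crossing point of
  `et` along `β₂` (`CoverSheetMirrorMod.coverSheet_cZero_of_cInf` applied to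
  `coverSheet_cInf_R0`), coefficient ring `(R0 M q).map W_q`.
-/

set_option autoImplicit false
set_option linter.style.haveILetI false
set_option linter.unusedSectionVars false

noncomputable section

/- S36 build-time patch: file-local shortcut instances. They only shorten instance search;
each is the instance that the search finds anyway (reducible, same terms after unfolding). -/
local instance (priority := 100000) Fermat.Agent.BR3.FastInst.instAlgFullC_CoverSheetInf_ValueEt
    {k : Type*} [Field k] (N : ℕ) :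
    Algebra k ↥(ModularCurve.modularFunctionFieldFullC k N) := inferInstance
local instance (priority := 100000) Fermat.Agent.BR3.FastInst.instFieldFullC_CoverSheetInf_ValueEt
    {k : Type*} [Field k] (N : ℕ) :
    Field ↥(ModularCurve.modularFunctionFieldFullC k N) := inferInstance
local instance (priority := 100000) Fermat.Agent.BR3.FastInst.instAlgLaurent_CoverSheetInf_ValueEt
    {k : Type*} [Field k] : Algebra k (LaurentSeries k) := inferInstance


set_option synthInstance.maxHeartbeats 400000

namespace Fermat.Agent.BR3.CoverSheetInf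

open ModularCurve AlgebraicCurve HahnSeries Polynomial Fermat.Agent.X0 Fermat.Agent.Val
open Fermat.Agent.Hecke.AL Fermat.Agent.BR.TwoVal Fermat.Agent.BR.ResGen Fermat.Agent.Red
open Fermat.Agent.BR.TwoValInst Fermat.Agent.BR3.FibreProd Fermat.Agent.BR.ModUnit
open Fermat.Agent.BR.ConstRedTwo Fermat.Agent.BR3.CInfRes Fermat.Agent.BR3.CoverK
open Fermat.Agent.BR.S0 Fermat.Agent.BR.S0.RedModular Fermat.Agent.BR.S0.PointDict
open Fermat.Agent.BR3.ALSq Fermat.Agent.BR3.CZeroRes Fermat.Agent.BR3.CoverSheetMirrorMod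

variable {M q : ℕ} [NeZero M] [hq : Fact q.Prime]
variable (B : ValuationSubring (AlgebraicClosure ℚ)) (hB : B.LiesOverPrime q) (hqM : ¬ q ∣ M)

local notation "kB" => IsLocalRing.ResidueField B
local notation "FtM" => modularFunctionFieldFullC (IsLocalRing.ResidueField B) M

include hqM in
/-- `H(j̃) ≠ 0` -/
theorem Hbar_ne_zero :
    haveI := charP_res q B hB
    aeval (jFullC kB M) (TbarPolyK kB q) ≠ 0 := by
  haveI := charP_res q B hB
  exact aeval_jFullC_ne_zero M q B hB hqM _ (TbarPolyK_natDegree kB q)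

set_option maxHeartbeats 2000000 in
/-- `H(j̃) = res₂ T'` vanishes at the branch `z₂ e` of every crossing. -/
theorem ord_pos_z₂ (e : Crossing (chartDataModular B hB hqM)) :
    haveI := charP_res q B hB
    0 < (z₂ (chartDataModular B hB hqM) e).ord (aeval (jFullC kB M) (TbarPolyK kB q)) := by
  haveI := charP_res q B hB
  obtain ⟨c, hc₁, hc₂⟩ := glued (chartDataModular B hB hqM) e (TB' M q) (TB'_mem_chartFin M q)
  have h1 : (chartDataModular B hB hqM).res 0
      ⟨TB' M q, (chartDataModular B hB hqM).hfin 0 (TB'_mem_chartFin M q)⟩ = 0 :=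
    constRedW1_res_TB' M q B hB hqM
  have h2 : (chartDataModular B hB hqM).res 1
      ⟨TB' M q, (chartDataModular B hB hqM).hfin 1 (TB'_mem_chartFin M q)⟩ =
      aeval (jFullC kB M) (TbarPolyK kB q) := constRedW2_res_TB' M q B hB hqM
  rw [h1] at hc₁
  have hc0 : c = 0 := hc₁.unique (isValueAt_zero _)
  rw [h2, hc0, isValueAt_zero_iff, adicValuation_lt_one_iff] at hc₂
  exact hc₂.resolve_left (Hbar_ne_zero B hB hqM)

set_option maxHeartbeats 2000000 in
/-- **(Z) on the component `1`**: every zero of `H(j̃)` is the branch `z₂ e` of a crossing. -/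
theorem exists_z₂_eq_of_ord_pos {x : Fb (M * q)}
    (H : AtlasHyp (chartDataModular B hB hqM) x) :
    haveI := charP_res q B hB
    ∀ Q : Place kB FtM, 0 < Q.ord (aeval (jFullC kB M) (TbarPolyK kB q)) →
      ∃ e, z₂ (chartDataModular B hB hqM) e = Q := by
  haveI := charP_res q B hB
  haveI : HasPrincipalDivisors kB FtM := (riemannPkg_modL_residueField M hqM B hB).principal
  set g : FtM := aeval (jFullC kB M) (TbarPolyK kB q) with hg
  have hg0 : g ≠ 0 := Hbar_ne_zero B hB hqM
  -- the finite set of zeros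
  obtain ⟨Dv, hD, -⟩ := HasPrincipalDivisors.exists_divisor (K := kB) _ hg0
  let Z : Set (Place kB FtM) := {Q | 0 < Q.ord g}
  have hZfin : Z.Finite := by
    refine Set.Finite.subset Dv.support.finite_toSet fun Q hQ => ?_
    have hQ' : 0 < Q.ord g := hQ
    rw [Finset.mem_coe, Finsupp.mem_support_iff, hD]
    omega
  haveI : Finite Z := hZfin
  haveI : Finite (Crossing (chartDataModular B hB hqM)) :=
    Fermat.Agent.BR.S0.Modular.finite_crossing H (TB_mem_chartFin M q)
  -- the two maps of the crossings into the zeros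
  have h1mem : ∀ e : Crossing (chartDataModular B hB hqM),
      z₁ (chartDataModular B hB hqM) e ∈ Z := fun e => by
    have h := AtlasHyp.ord_pos_of_crossing (D := chartDataModular B hB hqM)
      (TB_mem_chartFin M q) (constRedW2_res_TB M q B hB hqM)
      (by
        have h1 : (chartDataModular B hB hqM).res 0
            ⟨TB M q, (chartDataModular B hB hqM).hfin 0 (TB_mem_chartFin M q)⟩ = g :=
          constRedW1_res_TB M q B hB hqM
        rw [h1]
        exact hg0) e
    have h1 : (chartDataModular B hB hqM).res 0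
        ⟨TB M q, (chartDataModular B hB hqM).hfin 0 (TB_mem_chartFin M q)⟩ = g :=
      constRedW1_res_TB M q B hB hqM
    rw [h1] at h
    exact h
  have h2mem : ∀ e : Crossing (chartDataModular B hB hqM),
      z₂ (chartDataModular B hB hqM) e ∈ Z := fun e => ord_pos_z₂ B hB hqM e
  let f₁ : Crossing (chartDataModular B hB hqM) → Z := fun e => ⟨_, h1mem e⟩
  let f₂ : Crossing (chartDataModular B hB hqM) → Z := fun e => ⟨_, h2mem e⟩
  have hf₁inj : Function.Injective f₁ := fun e e' h => H.z₁_injective (congrArg Subtype.val h)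
  have hf₂inj : Function.Injective f₂ := fun e e' h => H.z₂_injective (congrArg Subtype.val h)
  have hf₁surj : Function.Surjective f₁ := by
    rintro ⟨Q, hQ⟩
    obtain ⟨Q₂, hQ₂⟩ := Fermat.Agent.BR.S0.ThickFinal.hzero_modular B hB hqM Q hQ
    exact ⟨⟨(Q, Q₂), hQ₂⟩, rfl⟩
  have hf₂surj : Function.Surjective f₂ := by
    have hcard : Nat.card Z ≤ Nat.card (Crossing (chartDataModular B hB hqM)) :=
      Nat.card_le_card_of_surjective f₁ hf₁surj
    exact (Function.Injective.bijective_of_nat_card_le hf₂inj hcard).2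
  intro Q hQ
  obtain ⟨e, he⟩ := hf₂surj ⟨Q, hQ⟩
  exact ⟨e, congrArg Subtype.val he⟩

set_option maxHeartbeats 2000000 in
/-- **(Z) on the component `1`**, in the shape of `ThickFinal.hzero_modular`. -/
theorem hzero_modular_two {x : Fb (M * q)} (H : AtlasHyp (chartDataModular B hB hqM) x) :
    haveI := charP_res q B hB
    ∀ Q : Place kB FtM, 0 < Q.ord (aeval (jFullC kB M) (TbarPolyK kB q)) →
      ∃ Q₁, GluedF (chartDataModular B hB hqM) Q₁ Q := by
  intro Q hQ
  obtain ⟨e, rfl⟩ := exists_z₂_eq_of_ord_pos B hB hqM H Q hQ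
  exact ⟨_, glued (chartDataModular B hB hqM) e⟩

set_option maxHeartbeats 2000000 in
/-- **`res₁ T = H(j̃) = res₂ T'` has a nonzero finite value at every finite non-crossing point of
`et`.** -/
theorem exists_value_TB_of_not_crossing_et {x : Fb (M * q)}
    (H : AtlasHyp (chartDataModular B hB hqM) x) (Q' : Place kB FtM)
    (hnc : ∀ e : Crossing (chartDataModular B hB hqM), Q' ≠ z₂ (chartDataModular B hB hqM) e)
    (hj : jFullC kB M ∈ Q'.toValuationSubring) :
    ∃ u : B, IsValueAt Q' ((constRedW1 B hB hqM).res ⟨TB M q, TB_mem_O1 M q B hB⟩)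
      (IsLocalRing.residue B u) ∧ IsLocalRing.residue B u ≠ 0 := by
  haveI := charP_res q B hB
  have hdeg : Q'.deg = 1 := (riemannPkg_modL_residueField M hqM B hB).deg_one Q'
  rw [constRedW1_res_TB]
  set Tbar : FtM := aeval (jFullC kB M) (TbarPolyK kB q) with hT
  have hmem : Tbar ∈ Q'.toValuationSubring := aeval_mem_toValuationSubring Q' hj _
  have hne : Tbar ≠ 0 := Hbar_ne_zero B hB hqM
  obtain ⟨c, hc⟩ := exists_isValueAt Q' hdeg hmem
  obtain ⟨u, rfl⟩ := IsLocalRing.residue_surjective (R := B) c
  refine ⟨u, hc, fun h0 => ?_⟩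
  rw [h0] at hc
  have hlt : Q'.adicValuation Tbar < 1 := by
    have := hc
    rwa [IsValueAt, map_zero, sub_zero] at this
  rcases (adicValuation_lt_one_iff Q').1 hlt with h | h
  · exact hne h
  · obtain ⟨e, he⟩ := exists_z₂_eq_of_ord_pos B hB hqM H Q' h
    exact hnc e he.symm

set_option maxHeartbeats 2000000 in
/-- **The sheet `cZero` over every finite non-crossing point of `et` along `β₂`**, the mirror of
the sheet `cInf` over `can`: coefficient ring `(R0 M q).map W_q`, generator `W_{q²} Θ`. -/
theorem coverSheet_cZero_of_not_crossing {x : Fb (M * q)}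
    (H : AtlasHyp (chartDataModular B hB hqM) x) (Q' : Place kB FtM)
    (hnc : ∀ e : Crossing (chartDataModular B hB hqM), Q' ≠ z₂ (chartDataModular B hB hqM) e)
    (hj : jFullC kB M ∈ Q'.toValuationSubring) :
    letI := algebraAlong (beta2 M q)
    haveI := isScalarTower_along (beta2 M q)
    ∃ u : B, CoverSheet B (IsLocalRing.residue B) (constRedW2 B hB hqM).O
      (constRedW2 B hB hqM).res Q' (constRedCZero B hB hqM).O (constRedCZero B hB hqM).res Q'
      ((R0 M q).map ((Wq hqM : Fb (M * q) ≃ₐ[Kb] Fb (M * q)) : Fb (M * q) →+* Fb (M * q)))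
      (W2 hqM (Theta M q))
      ((PsiTheta M q).map ((Wq hqM : Fb (M * q) ≃ₐ[Kb] Fb (M * q)) : Fb (M * q) →+* Fb (M * q)))
      ((X - Polynomial.C (TB M q ^ q) : (Fb (M * q))[X]).map
        ((Wq hqM : Fb (M * q) ≃ₐ[Kb] Fb (M * q)) : Fb (M * q) →+* Fb (M * q)))
      ((X ^ (q - 1) : (Fb (M * q))[X]).map
        ((Wq hqM : Fb (M * q) ≃ₐ[Kb] Fb (M * q)) : Fb (M * q) →+* Fb (M * q)))
      (u ^ q) := by
  obtain ⟨u, hu, hu0⟩ := exists_value_TB_of_not_crossing_et B hB hqM H Q' hnc hj
  exact ⟨u, coverSheet_cZero_of_cInf B hB hqM (coverSheet_cInf_R0 B hB hqM Q' u hu hu0)⟩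

end Fermat.Agent.BR3.CoverSheetInf
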