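import Fermat.Agent.BR3.CoverSheetInf.Sheet

/-!
# Program C, node SC1: the sheet `cInf` with an explicit small coefficient ring

* `intHull S` : the integral closure in a field `F` of the subring generated by a set `S`
  (`mem_intHull`, `subset_intHull`, `intHull_le_valuationSubring`, `map_intHull_le`);
* `R0 M q := intHull {j, j(s^q)}` in `F̄_{Mq}`; `PsiTheta_coeff_mem_R0`, `TB_pow_mem_R0`;
* `coverSheet_cInf_R0` : the sheet `cInf` over a finite ordinary point of `can` with
  coefficient ring `R0 M q` (no tube, no chart);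
* `R0_le_of_normal` : `R0 M q ≤ R'` for every subring `R'` with the `normal` property of a
  chart of a tube on which `j` and `j(s^q)` are regular (for `CoverSheetMono.coverSheet_mono`).
-/

set_option autoImplicit false
set_option linter.style.haveILetI false
set_option linter.unusedSectionVars false

noncomputable section

set_option synthInstance.maxHeartbeats 400000

namespace Fermat.Agent.BR3.CoverSheetInf

open ModularCurve AlgebraicCurve HahnSeries Polynomial Fermat.Agent.X0 Fermat.Agent.Val
open Fermat.Agent.Hecke.AL Fermat.Agent.BR.TwoVal Fermat.Agent.BR.ResGen Fermat.Agent.Red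
open Fermat.Agent.BR.TwoValInst Fermat.Agent.BR3.FibreProd Fermat.Agent.BR.ModUnit
open Fermat.Agent.BR.ConstRedTwo Fermat.Agent.BR3.CInfRes Fermat.Agent.BR3.CoverK

/-! ### The integral hull of a set of functions -/

section Hull

variable {F : Type*} [Field F]

/-- the integral closure in `F` of the subring generated by `S` -/
def intHull (S : Set F) : Subring F := (integralClosure (Subring.closure S) F).toSubring

theorem mem_intHull {S : Set F} {y : F} : y ∈ intHull S ↔ IsIntegral (Subring.closure S) y :=
  Iff.rfl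

theorem subset_intHull (S : Set F) : S ⊆ intHull S := fun y hy =>
  mem_intHull.2 (isIntegral_algebraMap (x := (⟨y, Subring.subset_closure hy⟩ : Subring.closure S)))

/-- transport of integrality along a ring homomorphism of the base subrings -/
theorem isIntegral_of_subring_map {F₂ : Type*} [Field F₂] (σ : F →+* F₂) {R : Subring F}
    {R₂ : Subring F₂} (h : ∀ y ∈ R, σ y ∈ R₂) {y : F} (hy : IsIntegral R y) :
    IsIntegral R₂ (σ y) := by
  obtain ⟨p, hp, hpy⟩ := hy
  let τ : R →+* R₂ := (σ.domRestrict R).codRestrict R₂ fun x => h x x.2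
  refine ⟨p.map τ, hp.map τ, ?_⟩
  rw [Polynomial.eval₂_map]
  have e : (algebraMap R₂ F₂).comp τ = σ.comp (algebraMap R F) := RingHom.ext fun x => rfl
  rw [e, ← Polynomial.hom_eval₂, hpy, map_zero]

/-- an integrally closed... : the integral hull of a subset of a valuation subring lies in it -/
theorem intHull_le_valuationSubring (V : ValuationSubring F) {S : Set F}
    (hS : ∀ y ∈ S, y ∈ V) : intHull S ≤ V.toSubring := by
  intro y hy
  have hcl : ∀ z ∈ Subring.closure S, (RingHom.id F) z ∈ V.toSubring := fun z hz =>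
    (Subring.closure_le (t := V.toSubring)).2 hS hz
  have hint : IsIntegral V.toSubring y :=
    isIntegral_of_subring_map (RingHom.id F) hcl (mem_intHull.1 hy)
  have hint' : IsIntegral V y := hint
  obtain ⟨z, hz⟩ := IsIntegrallyClosed.isIntegral_iff.mp hint'
  rw [← hz]
  exact z.2

/-- the image of an integral hull lies in the integral hull of the image -/
theorem map_intHull_le {F₂ : Type*} [Field F₂] (σ : F →+* F₂) (S : Set F) :
    (intHull S).map σ ≤ intHull (σ '' S) := by
  rintro _ ⟨y, hy, rfl⟩
  refine mem_intHull.2 (isIntegral_of_subring_map σ ?_ (mem_intHull.1 hy))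
  intro z hz
  have h : Subring.closure S ≤ (Subring.closure (σ '' S)).comap σ :=
    Subring.closure_le.2 fun s hs => Subring.subset_closure ⟨s, hs, rfl⟩
  exact h hz

end Hull

variable {M q : ℕ} [NeZero M] [hq : Fact q.Prime]
variable (B : ValuationSubring (AlgebraicClosure ℚ)) (hB : B.LiesOverPrime q) (hqM : ¬ q ∣ M)

local notation "kB" => IsLocalRing.ResidueField B
local notation "FtM" => modularFunctionFieldFullC (IsLocalRing.ResidueField B) M

variable (M q) in
/-- the explicit coefficient ring of the sheets `cInf` over the finite ordinary points of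
`can`: the integral closure of `ℤ[j, j(s^q)]` in `F̄_{Mq}`. -/
def R0 : Subring (Fb (M * q)) := intHull {jBar (M * q), jq' M q}

theorem jBar_mem_closure :
    jBar (M * q) ∈ Subring.closure ({jBar (M * q), jq' M q} : Set (Fb (M * q))) :=
  Subring.subset_closure (Set.mem_insert _ _)

theorem jq'_mem_closure :
    jq' M q ∈ Subring.closure ({jBar (M * q), jq' M q} : Set (Fb (M * q))) :=
  Subring.subset_closure (Set.mem_insert_of_mem _ rfl)

/-- `T^q ∈ R0` -/
theorem TB_pow_mem_R0 : TB M q ^ q ∈ R0 M q := by
  refine mem_intHull.2 (IsIntegral.pow ?_ q)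
  refine isIntegral_of_ev2Z_algebraMap
    (j := (⟨jBar (M * q), jBar_mem_closure⟩ :
      Subring.closure ({jBar (M * q), jq' M q} : Set (Fb (M * q))))) (TKPoly_monic q) ?_
  have h := ev2Z_TB M q
  rw [jF, ← jBar_eq_jBarD_one] at h
  exact h

/-- the coefficients of `Ψ_Θ` lie in `R0` -/
theorem PsiTheta_coeff_mem_R0 (n : ℕ) : (PsiTheta M q).coeff n ∈ R0 M q := by
  letI := algebraAlong (alpha2 M q)
  haveI : Module.Finite (Fb (M * q)) (Fb (M * q * q)) :=
    Fermat.Agent.Hecke.finiteAlong_heckeAlphaBar (M * q) q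
  set R₁ : Subring (Fb (M * q)) :=
    Subring.closure ({jBar (M * q), jq' M q} : Set (Fb (M * q))) with hR₁
  -- a monic polynomial over `R₁` killing `Θ`
  let G : R₁[X] := (TKPoly q).map
    (Polynomial.eval₂RingHom (Int.castRingHom R₁) (⟨jq' M q, jq'_mem_closure⟩ : R₁))
  have hG : G.Monic := (TKPoly_monic q).map _
  have h0 : aeval (Theta M q) (G.map (algebraMap R₁ (Fb (M * q)))) = 0 := by
    have h := congrArg (beta2 M q : Fb (M * q) →+* Fb (M * q * q)) (ev2Z_TB M q)
    rw [map_zero, map_ev2Z (beta2 M q : Fb (M * q) →+* Fb (M * q * q)), jF,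
      ← jBar_eq_jBarD_one] at h
    have e : (beta2 M q : Fb (M * q) →+* Fb (M * q * q)) (jBar (M * q)) =
        alpha2 M q (jq' M q) := beta2_jBar
    rw [e] at h
    rw [Polynomial.aeval_def, Polynomial.eval₂_map, Polynomial.eval₂_map, ← h, ev2Z]
    show Polynomial.eval₂ _ (Theta M q) (TKPoly q) = Polynomial.eval₂ _ (Theta M q) (TKPoly q)
    congr 1
    apply Polynomial.ringHom_ext
    · intro n; simp
    · simp
      rfl
  have hdvd : minpoly (Fb (M * q)) (Theta M q) ∣ G.map (algebraMap R₁ (Fb (M * q))) :=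
    minpoly.dvd _ _ h0
  have hint : IsIntegral (Fb (M * q)) (Theta M q) := Algebra.IsIntegral.isIntegral _
  exact mem_intHull.2
    (Polynomial.isIntegral_coeff_of_dvd G _ hG (minpoly.monic hint) hdvd n)

/-- **The sheet `cInf` over a finite ordinary point of `can` along `α₂`, coefficient ring
`R0 = ` integral closure of `ℤ[j, j(s^q)]`.** -/
theorem coverSheet_cInf_R0 (Q' : Place kB FtM) (u : B)
    (hu : IsValueAt Q' ((constRedW1 B hB hqM).res ⟨TB M q, TB_mem_O1 M q B hB⟩)
      (IsLocalRing.residue B u))
    (hu0 : IsLocalRing.residue B u ≠ 0) :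
    letI := algebraAlong (alpha2 M q)
    haveI := isScalarTower_along (alpha2 M q)
    CoverSheet B (IsLocalRing.residue B) (constRedW1 B hB hqM).O (constRedW1 B hB hqM).res Q'
      (constRedCInf B hB hqM).O (constRedCInf B hB hqM).res Q' (R0 M q) (Theta M q)
      (PsiTheta M q) (X - Polynomial.C (TB M q ^ q)) (X ^ (q - 1)) (u ^ q) :=
  coverSheet_cInf_of_mem B hB hqM Q' (R0 M q) PsiTheta_coeff_mem_R0 TB_pow_mem_R0 u hu hu0

/-- `R0 ≤ R'` for every subring with the `normal` property of a chart of a tube on which `j`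
and `j(s^q)` are regular. -/
theorem R0_le_of_normal (R' : Subring (Fb (M * q))) (T' : Set (Place Kb (Fb (M * q))))
    (hnormal : ∀ y : Fb (M * q), y ∈ O1 M B hB → (∀ P ∈ T', 0 ≤ P.ord y) → y ∈ R')
    (hj : ∀ P ∈ T', 0 ≤ P.ord (jBar (M * q))) (hjq' : ∀ P ∈ T', 0 ≤ P.ord (jq' M q)) :
    R0 M q ≤ R' := by
  intro y hy
  refine hnormal y ?_ fun P hP => ?_
  · refine intHull_le_valuationSubring (O1 M B hB) ?_ hy
    rintro z (rfl | rfl)
    · exact jBar_mem_O1 B hB
    · exact jq'_mem_O1 B hB
  · refine Fermat.Agent.X0.OrdDx.ord_nonneg_of_mem P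
      (intHull_le_valuationSubring P.toValuationSubring ?_ hy)
    rintro z (rfl | rfl)
    · by_cases h0 : jBar (M * q) = 0
      · rw [h0]; exact zero_mem _
      · exact Fermat.Agent.X0.OrdDx.mem_of_ord_nonneg P h0 (hj P hP)
    · by_cases h0 : jq' M q = 0
      · rw [h0]; exact zero_mem _
      · exact Fermat.Agent.X0.OrdDx.mem_of_ord_nonneg P h0 (hjq' P hP)

end Fermat.Agent.BR3.CoverSheetInf
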