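import Fermat.Agent.BR3.CoverSheetInf.Factor
import Fermat.Agent.BR3.CInfRes

/-!
# Program C, node SC1 (cInf sheets): derivative of the minimal polynomial, integrality

`x ∈ F₂` outside `α₂ F₁`, `x ∈ w₁`, small on every middle valuation `w₂ b`.

* `aeval_mem_nonunits_w1_of_coeff` : a polynomial over `F₁` with coefficients in `𝔪_{O1}` takes
  values in `𝔪_{w₁}` on `w₁`;
* `aeval_derivative_minpoly_sub_pow_mem_nonunits` :
  `Ψ'(x) ≡ x^{q-1}` modulo `𝔪_{w₁}` for `Ψ = minpoly F₁ x` (so the root `x̄` of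
  `Ψ̄ = (X - x̄) X^{q-1}` is simple wherever `x̄ ≠ 0`);
* `isIntegral_of_ev2Z_algebraMap`, `minpoly_coeff_mem_valuationSubring` : if `x` is a root of a
  monic polynomial with coefficients in a valuation subring `V` of the base field, the
  coefficients of its minimal polynomial lie in `V`.
-/

set_option autoImplicit false
set_option linter.style.haveILetI false
set_option linter.unusedSectionVars false

noncomputable section

set_option synthInstance.maxHeartbeats 400000

namespace Fermat.Agent.BR3.CoverSheetInf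

open ModularCurve AlgebraicCurve HahnSeries Polynomial Fermat.Agent.X0 Fermat.Agent.Val
open Fermat.Agent.Hecke.AL Fermat.Agent.BR.TwoVal Fermat.Agent.BR.ResGen
open Fermat.Agent.BR.TwoValInst Fermat.Agent.BR3.FibreProd Fermat.Agent.BR.ModUnit

/-! ### Generic integrality -/

section Integral

/-- `G(x, j) = 0` with `G ∈ ℤ[Y][X]` monic makes `x` integral over every ring `R` through which
`j` factors. -/
theorem isIntegral_of_ev2Z_algebraMap {R S : Type*} [CommRing R] [CommRing S] [Algebra R S]
    {j : R} {x : S} {G : ℤ[X][X]} (hG : G.Monic) (h : ev2Z (algebraMap R S j) x G = 0) :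
    IsIntegral R x := by
  refine ⟨G.map (Polynomial.eval₂RingHom (Int.castRingHom R) j), hG.map _, ?_⟩
  rw [Polynomial.eval₂_map, ← h, ev2Z]
  congr 1
  apply Polynomial.ringHom_ext
  · intro n; simp
  · simp

/-- The coefficients of the minimal polynomial of an element integral over a valuation subring
of the base field lie in the valuation subring. -/
theorem minpoly_coeff_mem_valuationSubring {F E : Type*} [Field F] [Field E] [Algebra F E]
    (V : ValuationSubring F) {x : E}
    (hint : letI : Algebra V E := ((algebraMap F E).comp V.subtype).toAlgebra; IsIntegral V x)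
    (n : ℕ) : (minpoly F x).coeff n ∈ V := by
  letI : Algebra V E := ((algebraMap F E).comp V.subtype).toAlgebra
  haveI : IsScalarTower V F E := IsScalarTower.of_algebraMap_eq fun _ => rfl
  rw [minpoly.isIntegrallyClosed_eq_field_fractions' F hint, Polynomial.coeff_map]
  exact ((minpoly V x).coeff n).2

end Integral

variable {M q : ℕ} [NeZero M] [hq : Fact q.Prime]
variable (B : ValuationSubring (AlgebraicClosure ℚ)) (hB : B.LiesOverPrime q)

local notation "kB" => IsLocalRing.ResidueField B

/-! ### Polynomials with small coefficients -/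

/-- a polynomial over `F₁` with coefficients in `𝔪_{O1}` takes values in `𝔪_{w₁}` on `w₁` -/
theorem aeval_mem_nonunits_w1_of_coeff {D : (Fb (M * q))[X]}
    (hD : ∀ n, D.coeff n ∈ (O1 M B hB).nonunits) {x : Fb (M * q * q)} (hx : x ∈ w1 M B hB) :
    letI := algebraAlong (alpha2 M q)
    aeval x D ∈ (w1 M B hB).nonunits := by
  letI := algebraAlong (alpha2 M q)
  rw [Polynomial.aeval_eq_sum_range]
  refine sum_mem_nonunits _ _ _ fun i _ => ?_
  rw [Algebra.smul_def]
  exact mul_mem_nonunits_right _ ((alpha2_mem_nonunits_w1_iff B hB _).2 (hD i))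
    (pow_mem hx i)

/-- the derivative of a polynomial with coefficients in `𝔪_{O1}` has coefficients in `𝔪_{O1}` -/
theorem derivative_coeff_mem_nonunits {D : (Fb (M * q))[X]}
    (hD : ∀ n, D.coeff n ∈ (O1 M B hB).nonunits) (n : ℕ) :
    (derivative D).coeff n ∈ (O1 M B hB).nonunits := by
  rw [Polynomial.coeff_derivative]
  refine mul_mem_nonunits_right _ (hD (n + 1)) ?_
  have h : ((n : Fb (M * q)) + 1) = ((n + 1 : ℕ) : Fb (M * q)) := by push_cast; ring
  rw [h]
  exact natCast_mem _ _

variable (hqM : ¬ q ∣ M) {ζ : Kbˣ} (hζ : IsPrimitiveRoot ζ q)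
variable {x : Fb (M * q * q)} (hx : x ∉ Set.range (alpha2 M q)) (h1 : x ∈ w1 M B hB)
  (h2 : ∀ b : Fin (q - 1), x ∈ w2 B hB hqM hζ b.2)

include hx h1 h2 in
/-- **`Ψ'(x) ≡ x^{q-1}` modulo `𝔪_{w₁}`** for `Ψ = minpoly F₁ x`, `x` small on every middle
valuation. -/
theorem aeval_derivative_minpoly_sub_pow_mem_nonunits
    (h2' : ∀ b : Fin (q - 1), x ∈ (w2 B hB hqM hζ b.2).nonunits) :
    letI := algebraAlong (alpha2 M q)
    aeval x (derivative (minpoly (Fb (M * q)) x)) - x ^ (q - 1) ∈ (w1 M B hB).nonunits := by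
  letI := algebraAlong (alpha2 M q)
  obtain ⟨c, hc, hcx⟩ := CInfRes.exists_alpha2_sub_mem_nonunits B hB hqM h1
  have hres : res1 M B hB ⟨c, hc⟩ = resw1 M B hB ⟨x, h1⟩ := by
    have hαmem : alpha2 M q c ∈ w1 M B hB := (alpha2_mem_w1_iff B hB c).2 hc
    have hdmem : x - alpha2 M q c ∈ w1 M B hB := sub_mem h1 hαmem
    have h0 : resw1 M B hB ⟨x - alpha2 M q c, hdmem⟩ = 0 :=
      (mem_nonunits_O1_iff (M := M * q) B hB hdmem).1 hcx
    have e : (⟨x - alpha2 M q c, hdmem⟩ : w1 M B hB) = ⟨x, h1⟩ - ⟨alpha2 M q c, hαmem⟩ := rfl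
    rw [e, map_sub, sub_eq_zero] at h0
    rw [h0, resw1_alpha2 B hB c hc]
  set P := minpoly (Fb (M * q)) x with hP
  set Q₀ : (Fb (M * q))[X] := (X - Polynomial.C c) * X ^ (q - 1) with hQ₀
  have hD : ∀ n, (P - Q₀).coeff n ∈ (O1 M B hB).nonunits :=
    minpoly_sub_mem_nonunits B hB hqM hζ hx h1 h2 h2' hc hres
  have hD' := aeval_mem_nonunits_w1_of_coeff B hB
    (derivative_coeff_mem_nonunits B hB hD) h1
  have hQ' : aeval x (derivative Q₀) =
      x ^ (q - 1) + (x - alpha2 M q c) * ((q - 1 : ℕ) * x ^ (q - 1 - 1)) := by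
    have e : algebraMap (Fb (M * q)) (Fb (M * q * q)) c = alpha2 M q c := rfl
    rw [hQ₀, Polynomial.derivative_mul, Polynomial.derivative_sub, Polynomial.derivative_X,
      Polynomial.derivative_C, sub_zero, one_mul, Polynomial.derivative_X_pow, map_add, map_mul,
      map_pow, Polynomial.aeval_X, map_sub, Polynomial.aeval_X, Polynomial.aeval_C, map_mul,
      Polynomial.aeval_C, map_pow, Polynomial.aeval_X, map_natCast, e]
  have hsplit : aeval x (derivative P) - x ^ (q - 1) =
      aeval x (derivative (P - Q₀)) +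
        (x - alpha2 M q c) * ((q - 1 : ℕ) * x ^ (q - 1 - 1)) := by
    rw [Polynomial.derivative_sub, map_sub, hQ']
    ring
  rw [hsplit]
  refine add_mem_nonunits _ hD' (mul_mem_nonunits_right _ hcx ?_)
  exact mul_mem (natCast_mem _ _) (pow_mem h1 _)

end Fermat.Agent.BR3.CoverSheetInf
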