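import Fermat.Agent.BR3.CoverSheetInf.Minpoly

/-!
# Program C, node SC1 (cInf sheets): the factorisation of the reduced minimal polynomial

`x ∈ F₂ = F̄_{Mq²}` outside `α₂ F₁`, `x ∈ w₁`, small on every middle valuation `w₂ b`, and
`c ∈ O1` with `res₁ c = res_{w₁} x`.

* `comparison_coeff` : coefficients of `(X - c) X^{q-1}` and their residues;
* `sub_mem_nonunits_O1_of_res1_eq` : equal residues give a difference in `𝔪_{O1}`;
* `minpoly_sub_mem_nonunits` : `minpoly F₁ x ≡ (X - c) X^{q-1}` modulo `𝔪_{O1}`, coefficient by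
  coefficient (the shape of `CoverK.CoverSheet.factor`).
-/

set_option autoImplicit false
set_option linter.style.haveILetI false
set_option linter.unusedSectionVars false

noncomputable section

set_option synthInstance.maxHeartbeats 400000

namespace Fermat.Agent.BR3.CoverSheetInf

open ModularCurve AlgebraicCurve HahnSeries Polynomial Fermat.Agent.X0 Fermat.Agent.Val
open Fermat.Agent.Hecke.AL Fermat.Agent.BR.TwoVal Fermat.Agent.BR.ResGen
open Fermat.Agent.BR.TwoValInst Fermat.Agent.BR3.FibreProd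

variable {M q : ℕ} [NeZero M] [hq : Fact q.Prime]

section Reduction

variable (B : ValuationSubring (AlgebraicClosure ℚ)) (hB : B.LiesOverPrime q)

local notation "kB" => IsLocalRing.ResidueField B

/-- the comparison polynomial `(X - c) X^{q-1}` over `O1`: coefficients and their residues -/
theorem comparison_coeff {c : Fb (M * q)} (hc : c ∈ O1 M B hB) (n : ℕ) :
    ∃ h : ((X - Polynomial.C c) * X ^ (q - 1) : (Fb (M * q))[X]).coeff n ∈ O1 M B hB,
      res1 M B hB ⟨_, h⟩ =
        ((X - Polynomial.C (res1 M B hB ⟨c, hc⟩)) * X ^ (q - 1) :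
          (LaurentSeries kB)[X]).coeff n := by
  let Qo : (O1 M B hB)[X] := (X - Polynomial.C (⟨c, hc⟩ : O1 M B hB)) * X ^ (q - 1)
  have hQ : Qo.map (O1 M B hB).subtype = (X - Polynomial.C c) * X ^ (q - 1) := by
    simp only [Qo, Polynomial.map_mul, Polynomial.map_sub, Polynomial.map_X, Polynomial.map_C,
      Polynomial.map_pow]
    rfl
  have hQn : ((X - Polynomial.C c) * X ^ (q - 1) : (Fb (M * q))[X]).coeff n =
      ((Qo.coeff n : O1 M B hB) : Fb (M * q)) := by
    rw [← hQ, Polynomial.coeff_map]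
    rfl
  refine ⟨hQn ▸ (Qo.coeff n).2, ?_⟩
  have e : (⟨((X - Polynomial.C c) * X ^ (q - 1) : (Fb (M * q))[X]).coeff n,
      hQn ▸ (Qo.coeff n).2⟩ : O1 M B hB) = Qo.coeff n := Subtype.ext hQn
  rw [e, ← Polynomial.coeff_map]
  simp only [Qo, Polynomial.map_mul, Polynomial.map_sub, Polynomial.map_X, Polynomial.map_C,
    Polynomial.map_pow]

/-- equal residues: the difference is small -/
theorem sub_mem_nonunits_O1_of_res1_eq {a b : Fb (M * q)} (ha : a ∈ O1 M B hB)
    (hb : b ∈ O1 M B hB) (h : res1 M B hB ⟨a, ha⟩ = res1 M B hB ⟨b, hb⟩) :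
    a - b ∈ (O1 M B hB).nonunits := by
  rw [mem_nonunits_O1_iff B hB (sub_mem ha hb)]
  have e : (⟨a - b, sub_mem ha hb⟩ : O1 M B hB) = ⟨a, ha⟩ - ⟨b, hb⟩ := rfl
  rw [e, map_sub, h, sub_self]

variable (hqM : ¬ q ∣ M) {ζ : Kbˣ} (hζ : IsPrimitiveRoot ζ q)
variable {x : Fb (M * q * q)} (hx : x ∉ Set.range (alpha2 M q)) (h1 : x ∈ w1 M B hB)
  (h2 : ∀ b : Fin (q - 1), x ∈ w2 B hB hqM hζ b.2)

include hx h2 in
/-- **`minpoly F₁ x ≡ (X - c) X^{q-1}` modulo `𝔪_{O1}`**, coefficientwise, if `x` is small on every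
middle valuation and `c ∈ O1` has the residue of `x` on `w₁`. -/
theorem minpoly_sub_mem_nonunits (h2' : ∀ b : Fin (q - 1), x ∈ (w2 B hB hqM hζ b.2).nonunits)
    {c : Fb (M * q)} (hc : c ∈ O1 M B hB)
    (hres : res1 M B hB ⟨c, hc⟩ = resw1 M B hB ⟨x, h1⟩) (n : ℕ) :
    letI := algebraAlong (alpha2 M q)
    (minpoly (Fb (M * q)) x - (X - Polynomial.C c) * X ^ (q - 1)).coeff n ∈
      (O1 M B hB).nonunits := by
  letI := algebraAlong (alpha2 M q)
  obtain ⟨hQmem, hQres⟩ := comparison_coeff (q := q) B hB hc n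
  have hPmem := minpoly_coeff_mem_O1 B hB hqM hζ hx h1 h2 n
  have hPres := res1_minpoly_coeff B hB hqM hζ hx h1 h2 n
  rw [gaussPoly_map_res B hB hqM hζ h1 h2 h2', ← hres, ← hQres] at hPres
  rw [Polynomial.coeff_sub]
  exact sub_mem_nonunits_O1_of_res1_eq B hB hPmem hQmem hPres

end Reduction

end Fermat.Agent.BR3.CoverSheetInf
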