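import Fermat.Agent.BR3.CoverSheetInf.Theta
import Fermat.Agent.BR3.PlaceOnto

/-!
# Program C, node SC1 (cInf sheets): minimal polynomials along `α₂` and their reduction on `can`

`F₁ = Fb (M * q)`, `F₂ = Fb (M * q * q)`, `α₂ : F₁ → F₂` of prime degree `q`; `σ_o`,
`o : Option (Fin (q - 1))`, all the embeddings `F₂ → ℚ̄((s))` over `α₂ F₁` (helper6's `sigmaAll`).

For `x ∈ F₂` outside `α₂ F₁`:
* `adjoin_eq_top_of_notMem_range`, `natDegree_minpoly_of_notMem_range` (`= q`),
  `exists_aeval_eq_of_notMem_range` (`F₂ = F₁[x]`);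
* `minpoly_map_coeB` : `(minpoly F₁ x).map coe = ∏_o (X - σ_o x)` in `ℚ̄((s))[X]`.

If moreover `x ∈ w₁` and `x ∈ w₂ b` for all `b`:
* `minpoly_coeff_mem_O1` : the coefficients of the minimal polynomial lie in `O1` (`can`);
* `minpoly_sub_mem_nonunits` : if `x` is small on every middle valuation and `c ∈ O1` has the
  residue of `x` on `w₁`, then `minpoly F₁ x ≡ (X - c) X^{q-1}` modulo `𝔪_{O1}`, coefficientwise
  (= the field `factor` of `CoverK.CoverSheet` with `ψ = X - C c`, `ψc = X^{q-1}`).
-/

set_option autoImplicit false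
set_option linter.style.haveILetI false
set_option linter.unusedSectionVars false

noncomputable section

/- S36 build-time patch: file-local shortcut instances. They only shorten instance search;
each is the instance that the search finds anyway (reducible, same terms after unfolding). -/
local instance (priority := 100000) Fermat.Agent.BR3.FastInst.instAlgFullC_CoverSheetInf_Minpoly
    {k : Type*} [Field k] (N : ℕ) :
    Algebra k ↥(ModularCurve.modularFunctionFieldFullC k N) := inferInstance
local instance (priority := 100000) Fermat.Agent.BR3.FastInst.instFieldFullC_CoverSheetInf_Minpoly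
    {k : Type*} [Field k] (N : ℕ) :
    Field ↥(ModularCurve.modularFunctionFieldFullC k N) := inferInstance
local instance (priority := 100000) Fermat.Agent.BR3.FastInst.instAlgLaurent_CoverSheetInf_Minpoly
    {k : Type*} [Field k] : Algebra k (LaurentSeries k) := inferInstance


set_option synthInstance.maxHeartbeats 400000

namespace Fermat.Agent.BR3.CoverSheetInf

open ModularCurve AlgebraicCurve HahnSeries Polynomial Fermat.Agent.X0 Fermat.Agent.Val
open Fermat.Agent.Hecke.AL Fermat.Agent.BR.TwoVal Fermat.Agent.BR.ResGen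
open Fermat.Agent.BR.TwoValInst Fermat.Agent.BR3.FibreProd

variable {M q : ℕ} [NeZero M] [hq : Fact q.Prime]

/-! ### Generators of `F₂` over `α₂ F₁` -/

section Generic

variable {x : Fb (M * q * q)} (hx : x ∉ Set.range (alpha2 M q))

set_option maxHeartbeats 1000000 in
include hx in
/-- an element outside `α₂ F₁` generates `F₂` (prime degree) -/
theorem adjoin_eq_top_of_notMem_range :
    letI := algebraAlong (alpha2 M q)
    IntermediateField.adjoin (Fb (M * q)) {x} = ⊤ := by
  letI := algebraAlong (alpha2 M q)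
  haveI : Module.Finite (Fb (M * q)) (Fb (M * q * q)) :=
    Fermat.Agent.Hecke.finiteAlong_heckeAlphaBar (M * q) q
  have hfd : Module.finrank (Fb (M * q)) (Fb (M * q * q)) = q := finrankAlong_alpha2
  have hmul := Module.finrank_mul_finrank (Fb (M * q))
    (IntermediateField.adjoin (Fb (M * q)) {x}) (Fb (M * q * q))
  rw [hfd] at hmul
  have hdvd : Module.finrank (Fb (M * q)) (IntermediateField.adjoin (Fb (M * q)) {x}) ∣ q :=
    Dvd.intro _ hmul
  rcases (Nat.dvd_prime hq.out).1 hdvd with h1 | h1
  · exfalso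
    rw [IntermediateField.finrank_adjoin_simple_eq_one_iff, IntermediateField.mem_bot] at h1
    exact hx h1
  · refine IntermediateField.eq_of_le_of_finrank_eq le_top ?_
    rw [h1, IntermediateField.finrank_top', hfd]

include hx in
theorem natDegree_minpoly_of_notMem_range :
    letI := algebraAlong (alpha2 M q)
    (minpoly (Fb (M * q)) x).natDegree = q := by
  letI := algebraAlong (alpha2 M q)
  haveI : Module.Finite (Fb (M * q)) (Fb (M * q * q)) :=
    Fermat.Agent.Hecke.finiteAlong_heckeAlphaBar (M * q) q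
  have hint : IsIntegral (Fb (M * q)) x := Algebra.IsIntegral.isIntegral _
  rw [← IntermediateField.adjoin.finrank hint, adjoin_eq_top_of_notMem_range hx,
    IntermediateField.finrank_top']
  exact finrankAlong_alpha2

include hx in
/-- `F₂ = F₁[x]` -/
theorem exists_aeval_eq_of_notMem_range (y : Fb (M * q * q)) :
    letI := algebraAlong (alpha2 M q)
    ∃ p : (Fb (M * q))[X], aeval x p = y := by
  letI := algebraAlong (alpha2 M q)
  haveI : Module.Finite (Fb (M * q)) (Fb (M * q * q)) :=
    Fermat.Agent.Hecke.finiteAlong_heckeAlphaBar (M * q) q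
  have hint : IsIntegral (Fb (M * q)) x := Algebra.IsIntegral.isIntegral _
  have h1 : y ∈ (IntermediateField.adjoin (Fb (M * q)) {x}).toSubalgebra := by
    rw [adjoin_eq_top_of_notMem_range hx]
    exact IntermediateField.mem_top
  rw [IntermediateField.adjoin_simple_toSubalgebra_of_isAlgebraic hint.isAlgebraic,
    Algebra.adjoin_singleton_eq_range_aeval] at h1
  exact h1

variable (hqM : ¬ q ∣ M) {ζ : Kbˣ} (hζ : IsPrimitiveRoot ζ q)

include hx in
/-- **The minimal polynomial over `ℚ̄((s))`**: `(minpoly F₁ x).map coe = ∏_o (X - σ_o x)`. -/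
theorem minpoly_map_coeB :
    letI := algebraAlong (alpha2 M q)
    (minpoly (Fb (M * q)) x).map (coeB (M * q)) =
      ∏ o, (X - Polynomial.C (sigmaAll hqM hζ o x)) := by
  letI := algebraAlong (alpha2 M q)
  haveI : Module.Finite (Fb (M * q)) (Fb (M * q * q)) :=
    Fermat.Agent.Hecke.finiteAlong_heckeAlphaBar (M * q) q
  have hint : IsIntegral (Fb (M * q)) x := Algebra.IsIntegral.isIntegral _
  have hdeg := natDegree_minpoly_of_notMem_range hx
  have hev : ∀ c : Fb (M * q),
      ((minpoly (Fb (M * q)) x).map (coeB (M * q))).eval (coeB (M * q) c) =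
        (∏ o, (X - Polynomial.C (sigmaAll hqM hζ o x))).eval (coeB (M * q) c) := by
    intro c
    have h1 := PlaceOnto.norm_sub_algebraMap (minpoly.monic hint) (minpoly.irreducible hint)
      (minpoly.aeval _ x) (exists_aeval_eq_of_notMem_range hx) c
    have h2 := coeB_norm hqM hζ (x - algebraMap (Fb (M * q)) (Fb (M * q * q)) c)
    rw [h1, hdeg] at h2
    have h3 : ∀ o, sigmaAll hqM hζ o (x - algebraMap (Fb (M * q)) (Fb (M * q * q)) c) =
        -(coeB (M * q) c - sigmaAll hqM hζ o x) := by
      intro o
      have e : algebraMap (Fb (M * q)) (Fb (M * q * q)) c = alpha2 M q c := rfl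
      rw [map_sub, e, sigmaAll_alpha2]
      ring
    simp only [h3] at h2
    rw [Finset.prod_neg, Finset.card_univ, Fintype.card_option, Fintype.card_fin,
      show q - 1 + 1 = q from Nat.sub_add_cancel hq.out.pos, map_mul, map_pow, map_neg,
      map_one] at h2
    have hne : ((-1 : LaurentSeries Kb)) ^ q ≠ 0 := pow_ne_zero _ (neg_ne_zero.2 one_ne_zero)
    have h4 := mul_left_cancel₀ hne h2
    rw [Polynomial.eval_map, Polynomial.eval₂_at_apply, Polynomial.eval_prod, h4]
    refine Finset.prod_congr rfl fun o _ => ?_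
    rw [Polynomial.eval_sub, Polynomial.eval_X, Polynomial.eval_C]
  haveI : Infinite (Fb (M * q)) :=
    Infinite.of_injective _ (algebraMap Kb (Fb (M * q))).injective
  apply Polynomial.eq_of_infinite_eval_eq
  refine Set.Infinite.mono ?_ (Set.infinite_range_of_injective (coeB (M * q)).injective)
  rintro _ ⟨c, rfl⟩
  exact hev c

end Generic

/-! ### Reduction of the minimal polynomial on `can` -/

section Reduction

variable (B : ValuationSubring (AlgebraicClosure ℚ)) (hB : B.LiesOverPrime q)
variable (hqM : ¬ q ∣ M) {ζ : Kbˣ} (hζ : IsPrimitiveRoot ζ q)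
variable {x : Fb (M * q * q)} (hx : x ∉ Set.range (alpha2 M q)) (h1 : x ∈ w1 M B hB)
  (h2 : ∀ b : Fin (q - 1), x ∈ w2 B hB hqM hζ b.2)

local notation "kB" => IsLocalRing.ResidueField B
local notation "GA" => gaussRingA B (IsLocalRing.residue B)

/-- `∏_o (X - σ_o x)` as a polynomial over the Gauss ring of `ℚ̄((s))` -/
def gaussPoly : (GA)[X] :=
  ∏ o, (X - Polynomial.C
    (⟨sigmaAll hqM hζ o x, sigmaAll_mem_gaussRingA B hB hqM hζ h1 h2 o⟩ : GA))

include hx in
theorem gaussPoly_map_subtype :
    letI := algebraAlong (alpha2 M q)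
    (gaussPoly B hB hqM hζ h1 h2).map (GA).subtype =
      (minpoly (Fb (M * q)) x).map (coeB (M * q)) := by
  letI := algebraAlong (alpha2 M q)
  rw [minpoly_map_coeB hx hqM hζ, gaussPoly, Polynomial.map_prod]
  refine Finset.prod_congr rfl fun o _ => ?_
  rw [Polynomial.map_sub, Polynomial.map_X, Polynomial.map_C]
  rfl

include hx in
theorem coeB_minpoly_coeff (n : ℕ) :
    letI := algebraAlong (alpha2 M q)
    coeB (M * q) ((minpoly (Fb (M * q)) x).coeff n) =
      (((gaussPoly B hB hqM hζ h1 h2).coeff n : GA) : LaurentSeries Kb) := by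
  letI := algebraAlong (alpha2 M q)
  have h := congrArg (fun p : (LaurentSeries Kb)[X] => p.coeff n)
    (gaussPoly_map_subtype B hB hqM hζ hx h1 h2)
  simp only [Polynomial.coeff_map] at h
  exact h.symm

include hx h1 h2 in
/-- **the coefficients of the minimal polynomial lie in `O1`** -/
theorem minpoly_coeff_mem_O1 (n : ℕ) :
    letI := algebraAlong (alpha2 M q)
    (minpoly (Fb (M * q)) x).coeff n ∈ O1 M B hB := by
  letI := algebraAlong (alpha2 M q)
  show coeB (M * q) ((minpoly (Fb (M * q)) x).coeff n) ∈ GA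
  rw [coeB_minpoly_coeff B hB hqM hζ hx h1 h2 n]
  exact ((gaussPoly B hB hqM hζ h1 h2).coeff n).2

include hx in
theorem res1_minpoly_coeff (n : ℕ) :
    letI := algebraAlong (alpha2 M q)
    res1 M B hB ⟨(minpoly (Fb (M * q)) x).coeff n,
        minpoly_coeff_mem_O1 B hB hqM hζ hx h1 h2 n⟩ =
      ((gaussPoly B hB hqM hζ h1 h2).map (gaussResA B (IsLocalRing.residue B))).coeff n := by
  letI := algebraAlong (alpha2 M q)
  rw [Polynomial.coeff_map]
  exact Fermat.Agent.BR.ResGen.gaussResA_congr B _ _ (coeB_minpoly_coeff B hB hqM hζ hx h1 h2 n)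

/-- the reduction of `∏_o (X - σ_o x)` when `x` is small on every middle valuation -/
theorem gaussPoly_map_res (h2' : ∀ b : Fin (q - 1), x ∈ (w2 B hB hqM hζ b.2).nonunits) :
    (gaussPoly B hB hqM hζ h1 h2).map (gaussResA B (IsLocalRing.residue B)) =
      (X - Polynomial.C (resw1 M B hB ⟨x, h1⟩)) * X ^ (q - 1) := by
  rw [gaussPoly, Polynomial.map_prod, Fintype.prod_option]
  congr 1
  · rw [Polynomial.map_sub, Polynomial.map_X, Polynomial.map_C]
    rfl
  · have h0 : ∀ b : Fin (q - 1),
        ((X - Polynomial.C (⟨sigmaAll hqM hζ (some b) x,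
          sigmaAll_mem_gaussRingA B hB hqM hζ h1 h2 (some b)⟩ : GA)).map
            (gaussResA B (IsLocalRing.residue B)) : (LaurentSeries kB)[X]) = X := by
      intro b
      rw [Polynomial.map_sub, Polynomial.map_X, Polynomial.map_C]
      have hb : gaussResA B (IsLocalRing.residue B) (⟨sigmaAll hqM hζ (some b) x,
          sigmaAll_mem_gaussRingA B hB hqM hζ h1 h2 (some b)⟩ : GA) = 0 :=
        (mem_nonunits_w2_iff B hB hqM hζ b.2 (h2 b)).1 (h2' b)
      rw [hb, map_zero, sub_zero]
    rw [Finset.prod_congr rfl fun b _ => h0 b, Finset.prod_const, Finset.card_univ,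
      Fintype.card_fin]

end Reduction

end Fermat.Agent.BR3.CoverSheetInf
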