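import Fermat.Agent.BR3.CoverSheetInf.Deriv
import Fermat.Agent.BR3.CoverK.Defs
import Fermat.Agent.X0.Alg.OrdDxLocal

/-!
# Program C, node SC1: the sheet `cInf` over the finite ordinary points of `can` along `α₂`

`F' = Fb (M * q)` with the component `can = constRedW1` (residue field `F̃_M`),
`F'' = Fb (M * q * q)` (algebra along `α₂`) with the component `cInf = constRedCInf` (residue
field `F̃_M`, `BR3/CInfRes.lean`), generator `Θ = β₂ T = Δ(s^q)/Δ(s^{q²})` (`BR3/CoverSheetInf/
Theta.lean`), `Ψ = PsiTheta = minpoly F' Θ`, `ψ = X - C (T^q)`, `ψc = X^{q-1}`.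

* `coverSheet_cInf` : **`CoverK.CoverSheet`** for every place `Q'` of `F̃_M` at which the reduction
  `T̄` of the modular unit has a nonzero value (= every finite ordinary point of `can`, special or
  not), for any subring `R'` with the `normal` property of a smooth chart of the tube `T'`, `j` and
  `j(s^q)` being regular on `T'`.
-/

set_option autoImplicit false
set_option linter.style.haveILetI false
set_option linter.unusedSectionVars false

noncomputable section

/- S36 build-time patch: file-local shortcut instances. They only shorten instance search;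
each is the instance that the search finds anyway (reducible, same terms after unfolding). -/
local instance (priority := 100000) Fermat.Agent.BR3.FastInst.instAlgFullC_CoverSheetInf_Sheet
    {k : Type*} [Field k] (N : ℕ) :
    Algebra k ↥(ModularCurve.modularFunctionFieldFullC k N) := inferInstance
local instance (priority := 100000) Fermat.Agent.BR3.FastInst.instFieldFullC_CoverSheetInf_Sheet
    {k : Type*} [Field k] (N : ℕ) :
    Field ↥(ModularCurve.modularFunctionFieldFullC k N) := inferInstance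
local instance (priority := 100000) Fermat.Agent.BR3.FastInst.instAlgLaurent_CoverSheetInf_Sheet
    {k : Type*} [Field k] : Algebra k (LaurentSeries k) := inferInstance


set_option synthInstance.maxHeartbeats 400000

namespace Fermat.Agent.BR3.CoverSheetInf

open ModularCurve AlgebraicCurve HahnSeries Polynomial Fermat.Agent.X0 Fermat.Agent.Val
open Fermat.Agent.Hecke.AL Fermat.Agent.BR.TwoVal Fermat.Agent.BR.ResGen Fermat.Agent.Red
open Fermat.Agent.BR.TwoValInst Fermat.Agent.BR3.FibreProd Fermat.Agent.BR.ModUnit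
open Fermat.Agent.BR.ConstRedTwo Fermat.Agent.BR3.CInfRes Fermat.Agent.BR3.CoverK

variable {M q : ℕ} [NeZero M] [hq : Fact q.Prime]
variable (B : ValuationSubring (AlgebraicClosure ℚ)) (hB : B.LiesOverPrime q) (hqM : ¬ q ∣ M)

local notation "kB" => IsLocalRing.ResidueField B
local notation "FtM" => modularFunctionFieldFullC (IsLocalRing.ResidueField B) M

variable (M q) in
/-- `Ψ_Θ`: the minimal polynomial of `Θ` over `α₂ F₁`. -/
def PsiTheta : (Fb (M * q))[X] :=
  letI := algebraAlong (alpha2 M q)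
  minpoly (Fb (M * q)) (Theta M q)

/-! ### The comparison constant `c = T^q` -/

theorem TB_pow_mem_O1 : TB M q ^ q ∈ O1 M B hB := pow_mem (TB_mem_O1 M q B hB) q

theorem res1_TB_pow :
    res1 M B hB ⟨TB M q ^ q, TB_pow_mem_O1 B hB⟩ =
      resw1 M B hB ⟨Theta M q, Theta_mem_w1 B hB⟩ := by
  haveI := charP_kB B hB
  have e : (⟨TB M q ^ q, TB_pow_mem_O1 B hB⟩ : O1 M B hB) =
      ⟨TB M q, TB_mem_O1 M q B hB⟩ ^ q := rfl
  rw [e, map_pow, res1_TB, resw1_Theta, qExpand_TK_char]

/-- `res_{cInf} Θ = (res_{can} T)^q` in `F̃_M`. -/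
theorem resInf_Theta :
    resInf B hB hqM ⟨Theta M q, Theta_mem_w1 B hB⟩ =
      (constRedW1 B hB hqM).res ⟨TB M q, TB_mem_O1 M q B hB⟩ ^ q := by
  apply Subtype.ext
  rw [coe_resInf, ← res1_TB_pow]
  have e : (⟨TB M q ^ q, TB_pow_mem_O1 B hB⟩ : O1 M B hB) =
      ⟨TB M q, TB_mem_O1 M q B hB⟩ ^ q := rfl
  rw [e, map_pow]
  exact congrArg (· ^ q) (coe_constRedW1_res B hB hqM ⟨TB M q, TB_mem_O1 M q B hB⟩).symm

/-! ### Regularity on a tube -/

section Tube

variable {T' : Set (Place Kb (Fb (M * q)))}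

/-- `T` is regular wherever `j` is -/
theorem TB_mem_toValuationSubring {P : Place Kb (Fb (M * q))}
    (hj : jBar (M * q) ∈ P.toValuationSubring) : TB M q ∈ P.toValuationSubring := by
  have h0 : ev2Z (algebraMap P.toValuationSubring (Fb (M * q)) ⟨jBar (M * q), hj⟩) (TB M q)
      (TKPoly q) = 0 := by
    have h := ev2Z_TB M q
    rw [jF, ← jBar_eq_jBarD_one] at h
    exact h
  have hint : IsIntegral P.toValuationSubring (TB M q) :=
    isIntegral_of_ev2Z_algebraMap (TKPoly_monic q) h0
  obtain ⟨z, hz⟩ := IsIntegrallyClosed.isIntegral_iff.mp hint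
  rw [← hz]
  exact z.2

/-- `Θ` is integral over the valuation ring of a place at which `j(s^q)` is regular -/
theorem isIntegral_Theta {P : Place Kb (Fb (M * q))}
    (hjq' : jq' M q ∈ P.toValuationSubring) :
    letI := algebraAlong (alpha2 M q)
    letI : Algebra P.toValuationSubring (Fb (M * q * q)) :=
      ((algebraMap (Fb (M * q)) (Fb (M * q * q))).comp P.toValuationSubring.subtype).toAlgebra
    IsIntegral P.toValuationSubring (Theta M q) := by
  letI := algebraAlong (alpha2 M q)
  letI : Algebra P.toValuationSubring (Fb (M * q * q)) :=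
    ((algebraMap (Fb (M * q)) (Fb (M * q * q))).comp P.toValuationSubring.subtype).toAlgebra
  refine isIntegral_of_ev2Z_algebraMap (j := (⟨jq' M q, hjq'⟩ : P.toValuationSubring))
    (TKPoly_monic q) ?_
  have h := congrArg (beta2 M q : Fb (M * q) →+* Fb (M * q * q)) (ev2Z_TB M q)
  rw [map_zero, map_ev2Z (beta2 M q : Fb (M * q) →+* Fb (M * q * q)), jF, ← jBar_eq_jBarD_one]
    at h
  have e : (beta2 M q : Fb (M * q) →+* Fb (M * q * q)) (jBar (M * q)) =
      alpha2 M q (jq' M q) := beta2_jBar
  rw [e] at h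
  exact h

/-- the coefficients of `Ψ_Θ` are regular wherever `j(s^q)` is -/
theorem PsiTheta_coeff_mem_toValuationSubring {P : Place Kb (Fb (M * q))}
    (hjq' : jq' M q ∈ P.toValuationSubring) (n : ℕ) :
    (PsiTheta M q).coeff n ∈ P.toValuationSubring := by
  letI := algebraAlong (alpha2 M q)
  exact minpoly_coeff_mem_valuationSubring P.toValuationSubring (isIntegral_Theta hjq') n

end Tube

/-! ### The sheet -/

section Sheet

/-- coefficients of a polynomial over a subring -/
theorem coeff_map_subtype_mem {F : Type*} [Field F] (R' : Subring F) (p : R'[X]) (n : ℕ) :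
    (p.map R'.subtype).coeff n ∈ R' := by
  rw [Polynomial.coeff_map]
  exact (p.coeff n).2

set_option maxHeartbeats 2000000 in
/-- **The sheet `cInf` over a finite ordinary point of `can` along `α₂`**, coefficient ring any
subring `R'` containing the coefficients of `Ψ_Θ` and the constant `T^q`: the cover
`F̄_{Mq²} / α₂ F̄_{Mq}` is standard étale at the point of `cInf` over `Q'`, with generator the
modular unit `Θ = β₂ T`, for every place `Q'` of `F̃_M` at which `T̄` has a nonzero value. -/
theorem coverSheet_cInf_of_mem (Q' : Place kB FtM) (R' : Subring (Fb (M * q)))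
    (hΨR : ∀ n, (PsiTheta M q).coeff n ∈ R') (hcR : TB M q ^ q ∈ R')
    (u : B)
    (hu : IsValueAt Q' ((constRedW1 B hB hqM).res ⟨TB M q, TB_mem_O1 M q B hB⟩)
      (IsLocalRing.residue B u))
    (hu0 : IsLocalRing.residue B u ≠ 0) :
    letI := algebraAlong (alpha2 M q)
    haveI := isScalarTower_along (alpha2 M q)
    CoverSheet B (IsLocalRing.residue B) (constRedW1 B hB hqM).O (constRedW1 B hB hqM).res Q'
      (constRedCInf B hB hqM).O (constRedCInf B hB hqM).res Q' R' (Theta M q) (PsiTheta M q)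
      (X - Polynomial.C (TB M q ^ q)) (X ^ (q - 1)) (u ^ q) := by
  letI := algebraAlong (alpha2 M q)
  haveI := isScalarTower_along (alpha2 M q)
  haveI : Module.Finite (Fb (M * q)) (Fb (M * q * q)) :=
    Fermat.Agent.Hecke.finiteAlong_heckeAlphaBar (M * q) q
  obtain ⟨ζ₀, hζ₀⟩ := HasEnoughRootsOfUnity.exists_primitiveRoot Kb q
  have hζ : IsPrimitiveRoot (hζ₀.isUnit (NeZero.ne q)).unit q := by
    rw [← IsPrimitiveRoot.coe_units_iff]
    exact hζ₀
  have hint : IsIntegral (Fb (M * q)) (Theta M q) := Algebra.IsIntegral.isIntegral _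
  have hx := Theta_notMem_range_alpha2 (M := M) (q := q) B hB hqM
  have h1 := Theta_mem_w1 (M := M) (q := q) B hB
  have h2 : ∀ b : Fin (q - 1), Theta M q ∈ w2 B hB hqM hζ b.2 := fun b =>
    Theta_mem_w2 B hB hqM hζ b.2
  have h2' : ∀ b : Fin (q - 1), Theta M q ∈ (w2 B hB hqM hζ b.2).nonunits := fun b =>
    Theta_mem_nonunits_w2 B hB hqM hζ b.2
  -- the value of `Θ̄` at `Q'`
  have hval : IsValueAt Q' (resInf B hB hqM ⟨Theta M q, h1⟩)
      (IsLocalRing.residue B (u ^ q)) := by
    rw [resInf_Theta, map_pow]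
    exact hu.pow q
  have hval0 : IsLocalRing.residue B (u ^ q) ≠ 0 := by
    rw [map_pow]
    exact pow_ne_zero q hu0
  -- powers of `Θ̄` are units at `Q'`
  have hpow : ∀ (m : ℕ) (h : Theta M q ^ m ∈ w1 M B hB),
      ¬ Q'.adicValuation (resInf B hB hqM ⟨Theta M q ^ m, h⟩) < 1 := by
    intro m h
    have e : (⟨Theta M q ^ m, h⟩ : w1 M B hB) = ⟨Theta M q, h1⟩ ^ m := rfl
    rw [e, map_pow, ((hval.pow m).adicValuation_eq_one (pow_ne_zero m hval0))]
    exact lt_irrefl _
  refine
    { comap_eq := comap_alpha2_w1 B hB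
      res_map := fun y hy hy' => resInf_alpha2 B hB hqM y hy
      res_eq_zero_iff := resInf_eq_zero_iff_mem_nonunits B hB hqM
      ord_map := fun f => rfl
      θ_mem := h1
      monic := minpoly.monic hint
      irreducible := minpoly.irreducible hint
      coeff_mem := hΨR
      root := minpoly.aeval _ _
      gen := exists_aeval_eq_of_notMem_range hx
      value := hval
      simple := ?_
      ψ_monic := Polynomial.monic_X_sub_C _
      ψc_monic := Polynomial.monic_X_pow _
      ψ_coeff_mem := ?_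
      ψc_coeff_mem := ?_
      factor := minpoly_sub_mem_nonunits B hB hqM hζ hx h1 h2 h2' (TB_pow_mem_O1 B hB)
        (res1_TB_pow B hB)
      ψc_unit := ?_
      indep := ?_ }
  · -- simple
    intro h
    have hD := aeval_derivative_minpoly_sub_pow_mem_nonunits B hB hqM hζ hx h1 h2 h2'
    have hpm : Theta M q ^ (q - 1) ∈ w1 M B hB := pow_mem h1 _
    have hDm : aeval (Theta M q) (derivative (minpoly (Fb (M * q)) (Theta M q))) -
        Theta M q ^ (q - 1) ∈ w1 M B hB := sub_mem h hpm
    have h0 : resInf B hB hqM ⟨_, hDm⟩ = 0 :=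
      (resInf_eq_zero_iff_mem_nonunits B hB hqM ⟨_, hDm⟩).2 hD
    have e : (⟨_, hDm⟩ : w1 M B hB) =
        ⟨aeval (Theta M q) (derivative (minpoly (Fb (M * q)) (Theta M q))), h⟩ -
          ⟨Theta M q ^ (q - 1), hpm⟩ := rfl
    rw [e, map_sub, sub_eq_zero] at h0
    show ¬ Q'.adicValuation (resInf B hB hqM
      ⟨aeval (Theta M q) (derivative (minpoly (Fb (M * q)) (Theta M q))), h⟩) < 1
    rw [h0]
    exact hpow (q - 1) hpm
  · -- ψ_coeff_mem
    intro n
    have e : (X - Polynomial.C (TB M q ^ q) : (Fb (M * q))[X]) =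
        (X - Polynomial.C (⟨TB M q ^ q, hcR⟩ : R') : R'[X]).map R'.subtype := by
      rw [Polynomial.map_sub, Polynomial.map_X, Polynomial.map_C]
      rfl
    rw [e]
    exact coeff_map_subtype_mem R' _ n
  · -- ψc_coeff_mem
    intro n
    have e : (X ^ (q - 1) : (Fb (M * q))[X]) = (X ^ (q - 1) : R'[X]).map R'.subtype := by
      rw [Polynomial.map_pow, Polynomial.map_X]
    rw [e]
    exact coeff_map_subtype_mem R' _ n
  · -- ψc_unit
    intro h
    have e : aeval (Theta M q) (X ^ (q - 1) : (Fb (M * q))[X]) = Theta M q ^ (q - 1) := by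
      rw [map_pow, Polynomial.aeval_X]
    have hpm : Theta M q ^ (q - 1) ∈ w1 M B hB := pow_mem h1 _
    have e' : (⟨aeval (Theta M q) (X ^ (q - 1) : (Fb (M * q))[X]), h⟩ : w1 M B hB) =
        ⟨Theta M q ^ (q - 1), hpm⟩ := Subtype.ext e
    show ¬ Q'.adicValuation (resInf B hB hqM
      ⟨aeval (Theta M q) (X ^ (q - 1) : (Fb (M * q))[X]), h⟩) < 1
    rw [e']
    exact hpow (q - 1) hpm
  · -- indep
    rw [Polynomial.natDegree_X_sub_C]
    intro c hc
    rw [Fin.sum_univ_one, Fin.val_zero, pow_zero, mul_one] at hc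
    funext l
    rw [Subsingleton.elim l 0]
    exact hc

include hqM in
/-- the coefficients of `Ψ_Θ` lie in `O1` -/
theorem PsiTheta_coeff_mem_O1 (n : ℕ) : (PsiTheta M q).coeff n ∈ O1 M B hB := by
  letI := algebraAlong (alpha2 M q)
  obtain ⟨ζ₀, hζ₀⟩ := HasEnoughRootsOfUnity.exists_primitiveRoot Kb q
  have hζ : IsPrimitiveRoot (hζ₀.isUnit (NeZero.ne q)).unit q := by
    rw [← IsPrimitiveRoot.coe_units_iff]
    exact hζ₀
  exact minpoly_coeff_mem_O1 B hB hqM hζ (Theta_notMem_range_alpha2 (M := M) (q := q) B hB hqM)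
    (Theta_mem_w1 (M := M) (q := q) B hB) (fun b => Theta_mem_w2 B hB hqM hζ b.2) n

set_option maxHeartbeats 2000000 in
/-- **The sheet `cInf` over a finite ordinary point of `can` along `α₂`**, coefficient ring any
subring `R'` with the `normal` property of a smooth chart of a tube `T'` on which `j` and
`j(s^q)` are regular. -/
theorem coverSheet_cInf (Q' : Place kB FtM) (R' : Subring (Fb (M * q)))
    (T' : Set (Place Kb (Fb (M * q))))
    (hnormal : ∀ y : Fb (M * q), y ∈ (constRedW1 B hB hqM).O → (∀ P ∈ T', 0 ≤ P.ord y) → y ∈ R')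
    (hj : ∀ P ∈ T', 0 ≤ P.ord (jBar (M * q))) (hjq' : ∀ P ∈ T', 0 ≤ P.ord (jq' M q))
    (u : B)
    (hu : IsValueAt Q' ((constRedW1 B hB hqM).res ⟨TB M q, TB_mem_O1 M q B hB⟩)
      (IsLocalRing.residue B u))
    (hu0 : IsLocalRing.residue B u ≠ 0) :
    letI := algebraAlong (alpha2 M q)
    haveI := isScalarTower_along (alpha2 M q)
    CoverSheet B (IsLocalRing.residue B) (constRedW1 B hB hqM).O (constRedW1 B hB hqM).res Q'
      (constRedCInf B hB hqM).O (constRedCInf B hB hqM).res Q' R' (Theta M q) (PsiTheta M q)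
      (X - Polynomial.C (TB M q ^ q)) (X ^ (q - 1)) (u ^ q) := by
  have hjV : ∀ P ∈ T', jBar (M * q) ∈ P.toValuationSubring := fun P hP => by
    by_cases h0 : jBar (M * q) = 0
    · rw [h0]; exact zero_mem _
    · exact Fermat.Agent.X0.OrdDx.mem_of_ord_nonneg P h0 (hj P hP)
  have hjqV : ∀ P ∈ T', jq' M q ∈ P.toValuationSubring := fun P hP => by
    by_cases h0 : jq' M q = 0
    · rw [h0]; exact zero_mem _
    · exact Fermat.Agent.X0.OrdDx.mem_of_ord_nonneg P h0 (hjq' P hP)
  refine coverSheet_cInf_of_mem B hB hqM Q' R' (fun n => ?_) ?_ u hu hu0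
  · exact hnormal _ (PsiTheta_coeff_mem_O1 B hB hqM n) fun P hP =>
      Fermat.Agent.X0.OrdDx.ord_nonneg_of_mem P
        (PsiTheta_coeff_mem_toValuationSubring (hjqV P hP) n)
  · exact hnormal _ (TB_pow_mem_O1 B hB) fun P hP =>
      Fermat.Agent.X0.OrdDx.ord_nonneg_of_mem P
        (pow_mem (TB_mem_toValuationSubring (hjV P hP)) q)

end Sheet

end Fermat.Agent.BR3.CoverSheetInf
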