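import Fermat.Agent.BR3.FibreProdMidFull
import Fermat.Agent.BR3.MidBeta
import Fermat.Agent.BR.ModUnitIntegral

/-!
# Program C, node SC1 (cInf sheets): the modular unit upstairs

`F₁ = Fb (M * q)`, `F₂ = Fb (M * q * q)`, `α₂ β₂ : F₁ → F₂`; `w₁` the Gauss valuation of `F₂`
(the component `cInf`), `w₂ b` the middle valuations (helper6), `O1`, `O2` the components `can`,
`et` of `F₁`.

`Theta M q := β₂ (TB M q) = Δ(s^q)/Δ(s^{q²})` is the modular unit `T = Δ(s)/Δ(s^q)` of `X₀(Mq)`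
pulled back along `β₂`.  It is the standard étale generator of the sheet `cInf` over EVERY finite
ordinary point of `can` along `α₂` (the generator `U = j(s^{q²}) - j(s)` is not: its residue
`j̃^{q²} - j̃` vanishes at the ordinary points with `j̃ ∈ 𝔽_{q²}`, where it collides with the middle
sheets).

* `Theta_mem_w1`, `resw1_Theta : res_{w₁} Θ = V(T̄) = T̄(s^q)`, `Theta_notMem_nonunits_w1`;
* `Theta_mem_nonunits_w2` : `Θ` is small on every middle valuation (helper1's
  `MidBeta.comap_beta2_w2 : w₂ b ∘ β₂ = O2` and `T ∈ 𝔪_{O2}`);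
* `Theta_notMem_range_alpha2`.
-/

set_option autoImplicit false
set_option linter.style.haveILetI false
set_option linter.unusedSectionVars false

noncomputable section

set_option synthInstance.maxHeartbeats 400000

namespace Fermat.Agent.BR3.CoverSheetInf

open ModularCurve AlgebraicCurve HahnSeries Polynomial Fermat.Agent.X0 Fermat.Agent.Val
open Fermat.Agent.Hecke.AL Fermat.Agent.BR.TwoVal Fermat.Agent.BR.ResGen
open Fermat.Agent.BR.TwoValInst Fermat.Agent.BR.ModUnit Fermat.Agent.BR3.FibreProd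

variable {M q : ℕ} [NeZero M] [hq : Fact q.Prime]
variable (B : ValuationSubring (AlgebraicClosure ℚ)) (hB : B.LiesOverPrime q)
variable (hqM : ¬ q ∣ M) {ζ : Kbˣ} (hζ : IsPrimitiveRoot ζ q) {b : ℕ} (hb : b < q - 1)

local notation "kB" => IsLocalRing.ResidueField B

/-! ### Nonunits along `α₂`, `β₂` -/

theorem beta2_mem_nonunits_w2_iff (x : Fb (M * q)) :
    beta2 M q x ∈ (w2 B hB hqM hζ hb).nonunits ↔ x ∈ (O2 B hB hqM).nonunits := by
  rw [ValuationSubring.mem_nonunits_iff_or, ValuationSubring.mem_nonunits_iff_or, ← map_inv₀,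
    MidBeta.beta2_mem_w2_iff, map_eq_zero]

theorem alpha2_mem_nonunits_w2_iff (x : Fb (M * q)) :
    alpha2 M q x ∈ (w2 B hB hqM hζ hb).nonunits ↔ x ∈ (O1 M B hB).nonunits := by
  rw [ValuationSubring.mem_nonunits_iff_or, ValuationSubring.mem_nonunits_iff_or, ← map_inv₀,
    alpha2_mem_w2_iff, map_eq_zero]

theorem alpha2_mem_nonunits_w1_iff (x : Fb (M * q)) :
    alpha2 M q x ∈ (w1 M B hB).nonunits ↔ x ∈ (O1 M B hB).nonunits := by
  rw [ValuationSubring.mem_nonunits_iff_or, ValuationSubring.mem_nonunits_iff_or, ← map_inv₀,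
    alpha2_mem_w1_iff, map_eq_zero]

theorem beta2_mem_nonunits_w1_iff (x : Fb (M * q)) :
    beta2 M q x ∈ (w1 M B hB).nonunits ↔ x ∈ (O1 M B hB).nonunits := by
  rw [ValuationSubring.mem_nonunits_iff_or, ValuationSubring.mem_nonunits_iff_or, ← map_inv₀,
    beta2_mem_w1_iff, map_eq_zero]

/-! ### The modular unit upstairs -/

variable (M q) in
/-- `Θ = β₂ T = Δ(s^q)/Δ(s^{q²}) ∈ F₂`: the modular unit of `X₀(Mq)` pulled back along `β₂`. -/
def Theta : Fb (M * q * q) := beta2 M q (TB M q)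

theorem Theta_mem_w1 : Theta M q ∈ w1 M B hB :=
  (beta2_mem_w1_iff B hB _).2 (TB_mem_O1 M q B hB)

/-- `res_{w₁} Θ = V(T̄) = T̄(s^q)`. -/
theorem resw1_Theta :
    resw1 M B hB ⟨Theta M q, Theta_mem_w1 B hB⟩ = qExpand kB q (TK kB q) := by
  have h := resw1_beta2 B hB (TB M q) (TB_mem_O1 M q B hB)
  rw [res1_TB] at h
  exact h

theorem Theta_notMem_nonunits_w1 : Theta M q ∉ (w1 M B hB).nonunits := fun h =>
  TB_not_mem_nonunits_O1 M q B hB ((beta2_mem_nonunits_w1_iff B hB _).1 h)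

/-- `Θ` is small on every middle valuation. -/
theorem Theta_mem_nonunits_w2 : Theta M q ∈ (w2 B hB hqM hζ hb).nonunits :=
  (beta2_mem_nonunits_w2_iff B hB hqM hζ hb _).2 (TB_mem_nonunits_O2 M q B hB hqM)

theorem Theta_mem_w2 : Theta M q ∈ w2 B hB hqM hζ hb :=
  (MidBeta.beta2_mem_w2_iff B hB hqM hζ hb _).2 (TB_mem_O2 M q B hB hqM)

include hB hqM in
/-- `Θ ∉ α₂ F₁`: it has different sizes on `w₁` and on the middle valuations. -/
theorem Theta_notMem_range_alpha2 : Theta M q ∉ Set.range (alpha2 M q) := by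
  rintro ⟨x, hx⟩
  obtain ⟨ζ₀, hζ₀⟩ := HasEnoughRootsOfUnity.exists_primitiveRoot Kb q
  have hζ' : IsPrimitiveRoot (hζ₀.isUnit (NeZero.ne q)).unit q := by
    rw [← IsPrimitiveRoot.coe_units_iff]
    exact hζ₀
  have hb0 : 0 < q - 1 := by have := hq.out.two_le; omega
  have h1 : x ∈ (O1 M B hB).nonunits := by
    rw [← alpha2_mem_nonunits_w2_iff B hB hqM hζ' hb0, hx]
    exact Theta_mem_nonunits_w2 B hB hqM hζ' hb0
  apply Theta_notMem_nonunits_w1 (M := M) (q := q) B hB
  rw [← hx]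
  exact (alpha2_mem_nonunits_w1_iff B hB x).2 h1

end Fermat.Agent.BR3.CoverSheetInf
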