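import Fermat.Agent.BR3.CoverSheetInf.SheetR0
import Fermat.Agent.BR.S0.ThickFinal

/-!
# Program C, node SC1: the per-point hypothesis of `coverSheet_cInf`

At every point `Q'` of the component `can = compW 0` of the two-component model of `X₀(qM)` which
is not a crossing and at which `j̃` is regular, the reduction `T̄` of the modular unit has a
nonzero finite value: `T̄ = H(j̃)` is a polynomial in `j̃`, and its zeros are the crossings
(`ThickFinal.hzero_modular`).

* `exists_value_TB_of_not_crossing` : the hypotheses `hu`, `hu0` of `coverSheet_cInf`,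
  `coverSheet_cInf_R0`, `coverSheet_cInf_of_mem`;
* `coverSheet_cInf_of_not_crossing` : the sheet `cInf` over every finite non-crossing point of
  `can`, coefficient ring `R0`.
-/

set_option autoImplicit false
set_option linter.style.haveILetI false
set_option linter.unusedSectionVars false

noncomputable section

set_option synthInstance.maxHeartbeats 400000

namespace Fermat.Agent.BR3.CoverSheetInf

open ModularCurve AlgebraicCurve HahnSeries Polynomial Fermat.Agent.X0 Fermat.Agent.Val
open Fermat.Agent.Hecke.AL Fermat.Agent.BR.TwoVal Fermat.Agent.BR.ResGen Fermat.Agent.Red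
open Fermat.Agent.BR.TwoValInst Fermat.Agent.BR3.FibreProd Fermat.Agent.BR.ModUnit
open Fermat.Agent.BR.ConstRedTwo Fermat.Agent.BR3.CInfRes Fermat.Agent.BR3.CoverK
open Fermat.Agent.BR.S0 Fermat.Agent.BR.S0.RedModular Fermat.Agent.BR.S0.PointDict

variable {M q : ℕ} [NeZero M] [hq : Fact q.Prime]
variable (B : ValuationSubring (AlgebraicClosure ℚ)) (hB : B.LiesOverPrime q) (hqM : ¬ q ∣ M)

local notation "kB" => IsLocalRing.ResidueField B
local notation "FtM" => modularFunctionFieldFullC (IsLocalRing.ResidueField B) M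

/-- a polynomial in a function regular at a place is regular at the place -/
theorem aeval_mem_toValuationSubring {k L : Type*} [Field k] [Field L] [Algebra k L]
    (Q : Place k L) {g : L} (hg : g ∈ Q.toValuationSubring) (p : k[X]) :
    aeval g p ∈ Q.toValuationSubring := by
  rw [Polynomial.aeval_eq_sum_range]
  refine sum_mem fun i _ => ?_
  rw [Algebra.smul_def]
  exact mul_mem (Q.algebraMap_mem' _) (pow_mem hg i)

set_option maxHeartbeats 2000000 in
/-- **The reduction of the modular unit has a nonzero finite value at every finite non-crossing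
point of `can`.** -/
theorem exists_value_TB_of_not_crossing (Q' : Place kB FtM) (hdeg : Q'.deg = 1)
    (hnc : ∀ e : Crossing (chartDataModular B hB hqM), Q' ≠ z₁ (chartDataModular B hB hqM) e)
    (hj : jFullC kB M ∈ Q'.toValuationSubring) :
    ∃ u : B, IsValueAt Q' ((constRedW1 B hB hqM).res ⟨TB M q, TB_mem_O1 M q B hB⟩)
      (IsLocalRing.residue B u) ∧ IsLocalRing.residue B u ≠ 0 := by
  haveI := charP_res q B hB
  rw [constRedW1_res_TB]
  set Tbar : FtM := aeval (jFullC kB M) (TbarPolyK kB q) with hT
  have hmem : Tbar ∈ Q'.toValuationSubring := aeval_mem_toValuationSubring Q' hj _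
  have hne : Tbar ≠ 0 := by
    intro h0
    apply TB_not_mem_nonunits_O1 M q B hB
    have h1 := constRedW1_res_TB (M := M) (q := q) B hB hqM
    rw [← hT, h0] at h1
    have h2 := ((constRedW1 B hB hqM).res_eq_zero_iff ⟨TB M q, TB_mem_O1 M q B hB⟩).1 h1
    exact (ValuationSubring.coe_mem_nonunits_iff (A := O1 M B hB)
      (a := ⟨TB M q, TB_mem_O1 M q B hB⟩)).2 ((IsLocalRing.mem_maximalIdeal _).2 h2)
  obtain ⟨c, hc⟩ := exists_isValueAt Q' hdeg hmem
  obtain ⟨u, rfl⟩ := IsLocalRing.residue_surjective (R := B) c
  refine ⟨u, hc, fun h0 => ?_⟩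
  rw [h0] at hc
  have hlt : Q'.adicValuation Tbar < 1 := by
    have := hc
    rwa [IsValueAt, map_zero, sub_zero] at this
  rcases (adicValuation_lt_one_iff Q').1 hlt with h | h
  · exact hne h
  · obtain ⟨Q₂, hQ₂⟩ := Fermat.Agent.BR.S0.ThickFinal.hzero_modular B hB hqM Q' h
    obtain ⟨e, he⟩ := (exists_z₁_eq_iff (chartDataModular B hB hqM) Q').2 ⟨Q₂, hQ₂⟩
    exact hnc e he.symm

set_option maxHeartbeats 2000000 in
/-- **The sheet `cInf` over every finite non-crossing point of `can`**, coefficient ring `R0`,
sheet constant `u ^ q` for some `u : B`. -/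
theorem coverSheet_cInf_of_not_crossing (Q' : Place kB FtM) (hdeg : Q'.deg = 1)
    (hnc : ∀ e : Crossing (chartDataModular B hB hqM), Q' ≠ z₁ (chartDataModular B hB hqM) e)
    (hj : jFullC kB M ∈ Q'.toValuationSubring) :
    letI := algebraAlong (alpha2 M q)
    haveI := isScalarTower_along (alpha2 M q)
    ∃ u : B, CoverSheet B (IsLocalRing.residue B) (constRedW1 B hB hqM).O
      (constRedW1 B hB hqM).res Q' (constRedCInf B hB hqM).O (constRedCInf B hB hqM).res Q'
      (R0 M q) (Theta M q) (PsiTheta M q) (X - Polynomial.C (TB M q ^ q)) (X ^ (q - 1))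
      (u ^ q) := by
  obtain ⟨u, hu, hu0⟩ := exists_value_TB_of_not_crossing B hB hqM Q' hdeg hnc hj
  exact ⟨u, coverSheet_cInf_R0 B hB hqM Q' u hu hu0⟩

end Fermat.Agent.BR3.CoverSheetInf
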